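import Fermat.Agent.S48.B1.Kum
import Fermat.Agent.S48.Coh1.Corr
import Fermat.Agent.ES.Glue.Psi

/-!
# S48 / Glue1 : from the analytic dictionary (K1)-(K5) to the support property (abstract form)

`F / K` a function field, `l` an exponent, `Γ ≤ SL₂(ℤ)` of finite index, `C i` correspondences on `Γ`, `op i`
multiplicative operators on `Fˣ`.  `CharData` = the analytic dictionary "class in `Kum K F l`  ↔  character of `Γ` of
exponent `l`" (to be instantiated by part An1).  Output: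

* `CharData.finite_Kum` : `Kum K F l` is finite;
* `CharData.Psi : Hom_{par,ell}(Γ, ℤ/l) →+ Kum K F l`, injective and equivariant;
* `CharData.kills` : a noncommutative polynomial in the operators killing `Kum K F l` kills `Hom_{par,ell}(Γ, ℤ/l)`.
-/

set_option autoImplicit false
set_option linter.unusedSectionVars false

open CongruenceSubgroup Matrix.SpecialLinearGroup
open scoped MatrixGroups

namespace Fermat.Agent.S48.Glue1

open Fermat.Agent.S48.B1 Fermat.Agent.S48.Coh1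

noncomputable section

/-- **The analytic dictionary (K1)-(K5)**, abstractly. -/
structure CharData (K F : Type) [Field K] [Field F] [Algebra K F] (l : ℕ) (Γ : Subgroup SL(2, ℤ))
    {ι : Type} (C : ι → Corr Γ) (op : ι → Fˣ →* Fˣ) where
  /-- `χ` is the character of the `l`-th roots (on `ℍ`) of `f`. -/
  HasChar : Fˣ → (Γ →* ℂˣ) → Prop
  /-- (K1) existence -/
  exists_char : ∀ f ∈ Dm K F l, ∃ χ, HasChar f χ ∧ χ ^ l = 1
  /-- (K1) uniqueness -/
  unique : ∀ {f : Fˣ} {χ χ' : Γ →* ℂˣ}, HasChar f χ → HasChar f χ' → χ = χ'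
  /-- (K2) multiplicativity -/
  mul : ∀ {f g : Fˣ} {χ χ' : Γ →* ℂˣ}, HasChar f χ → HasChar g χ' → HasChar (f * g) (χ * χ')
  /-- (K3) kernel -/
  one_iff : ∀ f : Fˣ, HasChar f 1 ↔ ∃ h : Fˣ, h ^ l = f
  /-- (K4) every character of exponent `l` which is trivial on the elements of trace `0, ±1, ±2` occurs -/
  exists_of_good : ∀ ψ : Γ →* ℂˣ, ψ ^ l = 1 →
    (∀ γ : Γ, |((γ : SL(2, ℤ)) : Matrix (Fin 2) (Fin 2) ℤ).trace| ≤ 2 → ψ γ = 1) →
    ∃ f ∈ Dm K F l, HasChar f ψ
  /-- (K5) equivariance -/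
  equivariant : ∀ (i : ι) {f : Fˣ} {χ χ' : Γ →* ℂˣ}, f ∈ Dm K F l → HasChar f χ →
    (∀ γ, χ' γ = ∏ x : (C i).X, χ ((C i).c γ x)) → HasChar (op i f) χ'

/-! ### the characters `exp (2πi φ / l)` -/

section expChar

variable (l : ℕ) [NeZero l] {Γ : Subgroup SL(2, ℤ)}

/-- the standard character `ℤ/l → ℂˣ`. -/
def zch : Multiplicative (ZMod l) →* ℂˣ := (ZMod.stdAddChar (N := l)).toMonoidHom.toHomUnits

theorem zch_injective : Function.Injective (zch l) := by
  intro a b h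
  have h1 : ((zch l a : ℂˣ) : ℂ) = zch l b := by rw [h]
  exact Multiplicative.toAdd.injective (ZMod.injective_stdAddChar h1)

/-- the character `γ ↦ exp (2πi φ(γ) / l)` attached to `φ : Γ → ℤ/l`. -/
def expZ (φ : Additive Γ →+ ZMod l) : Γ →* ℂˣ where
  toFun γ := zch l (Multiplicative.ofAdd (φ (Additive.ofMul γ)))
  map_one' := by rw [ofMul_one, map_zero, ofAdd_zero, map_one]
  map_mul' γ δ := by rw [ofMul_mul, map_add, ofAdd_add, map_mul]

theorem expZ_apply (φ : Additive Γ →+ ZMod l) (γ : Γ) :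
    expZ l φ γ = zch l (Multiplicative.ofAdd (φ (Additive.ofMul γ))) := rfl

theorem expZ_add (φ φ' : Additive Γ →+ ZMod l) : expZ l (φ + φ') = expZ l φ * expZ l φ' := by
  ext γ
  rw [MonoidHom.mul_apply, expZ_apply, expZ_apply, expZ_apply, AddMonoidHom.add_apply, ofAdd_add,
    map_mul]

theorem expZ_pow (φ : Additive Γ →+ ZMod l) : expZ l φ ^ l = 1 := by
  ext γ
  rw [MonoidHom.pow_apply, expZ_apply, MonoidHom.one_apply, ← map_pow, ← ofAdd_nsmul]
  simp

theorem expZ_eq_one_iff (φ : Additive Γ →+ ZMod l) : expZ l φ = 1 ↔ φ = 0 := by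
  constructor
  · intro h
    ext γ
    have := DFunLike.congr_fun h γ
    rw [expZ_apply, MonoidHom.one_apply, ← map_one (zch l)] at this
    exact Multiplicative.ofAdd.injective (zch_injective l this)
  · rintro rfl
    ext γ
    rw [expZ_apply]
    simp

theorem expZ_good {φ : Additive Γ →+ ZMod l} (hφ : IsParEll Γ φ) (γ : Γ)
    (hγ : |((γ : SL(2, ℤ)) : Matrix (Fin 2) (Fin 2) ℤ).trace| ≤ 2) : expZ l φ γ = 1 := by
  have h0 : φ (Additive.ofMul γ) = 0 := by
    by_cases h1 : |((γ : SL(2, ℤ)) : Matrix (Fin 2) (Fin 2) ℤ).trace| ≤ 1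
    · refine hφ.2 γ ?_
      apply Subtype.ext
      apply Subtype.ext
      rw [Subgroup.coe_pow, Matrix.SpecialLinearGroup.coe_pow]
      exact Fermat.Agent.ES.Glue.pow_twelve_eq_one _ (γ : SL(2, ℤ)).det_coe h1
    · refine hφ.1 γ ?_
      have h2 : |((γ : SL(2, ℤ)) : Matrix (Fin 2) (Fin 2) ℤ).trace| = 2 := by omega
      rw [← sq_abs, h2]
      norm_num
  rw [expZ_apply, h0, ofAdd_zero, map_one]

theorem expZ_op (C : Corr Γ) (φ : Additive Γ →+ ZMod l) (γ : Γ) :
    expZ l (C.op (ZMod l) φ) γ = ∏ x : C.X, expZ l φ (C.c γ x) := by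
  rw [expZ_apply, Corr.op_apply, ofAdd_sum, map_prod]
  rfl

end expChar

/-- finitely many characters of exponent `l` on a subgroup of finite index of `SL₂(ℤ)`. -/
theorem finite_chars (Γ : Subgroup SL(2, ℤ)) [Γ.FiniteIndex] (m : ℕ) (hm : 0 < m) :
    {χ : Γ →* ℂˣ | χ ^ m = 1}.Finite := by
  classical
  have hSL : Group.FG SL(2, ℤ) :=
    ⟨⟨{ModularGroup.S, ModularGroup.T}, by
      rw [Finset.coe_insert, Finset.coe_singleton]
      exact SpecialLinearGroup.SL2Z_generators⟩⟩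
  have hG : Group.FG Γ := inferInstance
  obtain ⟨S, hS⟩ := hG.out
  have : NeZero m := ⟨hm.ne'⟩
  let Φ : {χ : Γ →* ℂˣ | χ ^ m = 1} → (S → rootsOfUnity m ℂ) :=
    fun χ s => ⟨χ.1 s, by
      rw [mem_rootsOfUnity]
      exact DFunLike.congr_fun χ.2 (s : Γ)⟩
  have hΦ : Function.Injective Φ := by
    intro χ χ' h
    apply Subtype.ext
    apply MonoidHom.eq_of_eqOn_dense hS
    intro s hs
    have := congrArg Subtype.val (congrFun h ⟨s, hs⟩)
    exact this
  exact Set.finite_coe_iff.1 (Finite.of_injective Φ hΦ)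

/-- intertwining of noncommutative polynomials. -/
theorem lift_intertwine {I A B : Type*} [AddCommGroup A] [Module ℤ A] [AddCommGroup B] [Module ℤ B]
    (Ψ : A →+ B) (a : I → Module.End ℤ A) (b : I → Module.End ℤ B)
    (h : ∀ i x, Ψ (a i x) = b i (Ψ x)) (P : FreeAlgebra ℤ I) :
    ∀ x, Ψ (FreeAlgebra.lift ℤ a P x) = FreeAlgebra.lift ℤ b P (Ψ x) := by
  induction P using FreeAlgebra.induction with
  | grade0 n =>
    intro x
    rw [AlgHom.commutes, AlgHom.commutes]
    simp only [eq_intCast, Module.End.intCast_apply, map_zsmul]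
  | grade1 i =>
    intro x
    rw [FreeAlgebra.lift_ι_apply, FreeAlgebra.lift_ι_apply, h]
  | mul p q hp hq =>
    intro x
    rw [map_mul, map_mul, Module.End.mul_apply, Module.End.mul_apply, hp, hq]
  | add p q hp hq =>
    intro x
    rw [map_add, map_add, LinearMap.add_apply, LinearMap.add_apply, map_add, hp, hq]

namespace CharData

variable {K F : Type} [Field K] [Field F] [Algebra K F] {l : ℕ} {Γ : Subgroup SL(2, ℤ)}
  {ι : Type} {C : ι → Corr Γ} {op : ι → Fˣ →* Fˣ} (D : CharData K F l Γ C op)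

/-- the character of `f ∈ Dm`. -/
def chrD (f : Dm K F l) : Γ →* ℂˣ := (D.exists_char f f.2).choose

theorem chrD_spec (f : Dm K F l) : D.HasChar f (D.chrD f) := (D.exists_char f f.2).choose_spec.1

theorem chrD_pow (f : Dm K F l) : D.chrD f ^ l = 1 := (D.exists_char f f.2).choose_spec.2

theorem chrD_eq {f : Dm K F l} {χ : Γ →* ℂˣ} (h : D.HasChar f χ) : D.chrD f = χ :=
  D.unique (D.chrD_spec f) h

theorem chrD_mul (f g : Dm K F l) : D.chrD (f * g) = D.chrD f * D.chrD g :=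
  D.chrD_eq (D.mul (D.chrD_spec f) (D.chrD_spec g))

/-- `chrD` as a homomorphism. -/
def chrDHom : Dm K F l →* (Γ →* ℂˣ) := MonoidHom.mk' D.chrD D.chrD_mul

theorem chrD_eq_one_iff (f : Dm K F l) : D.chrD f = 1 ↔ Kum.mk f = 0 := by
  rw [Kum.mk_eq_zero_iff, ← D.one_iff]
  constructor
  · intro h
    have h1 := D.chrD_spec f
    rwa [h] at h1
  · intro h
    exact D.chrD_eq h

/-- the character of a Kummer class. -/
def chr : Kum K F l →+ Additive (Γ →* ℂˣ) :=
  MonoidHom.toAdditive (QuotientGroup.lift _ D.chrDHom (by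
    intro f hf
    have : Kum.mk f = 0 := (QuotientGroup.eq_one_iff f).mpr hf
    exact (D.chrD_eq_one_iff f).mpr this))

theorem chr_mk (f : Dm K F l) : D.chr (Kum.mk f) = Additive.ofMul (D.chrD f) := rfl

theorem chr_injective : Function.Injective D.chr := by
  rw [injective_iff_map_eq_zero]
  intro x hx
  obtain ⟨f, rfl⟩ := Kum.mk_surjective x
  exact (D.chrD_eq_one_iff f).mp hx

include D in
/-- **the Kummer group is finite.** -/
theorem finite_Kum [Γ.FiniteIndex] (hl : 0 < l) : Finite (Kum K F l) := by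
  have hfin := finite_chars Γ l hl
  have : Finite {χ : Γ →* ℂˣ | χ ^ l = 1} := hfin
  let Φ : Kum K F l → {χ : Γ →* ℂˣ | χ ^ l = 1} := fun x => ⟨(D.chr x).toMul, by
    obtain ⟨f, rfl⟩ := Kum.mk_surjective x
    exact D.chrD_pow f⟩
  refine Finite.of_injective Φ fun x y h => D.chr_injective ?_
  exact congrArg (fun z : {χ : Γ →* ℂˣ | χ ^ l = 1} => Additive.ofMul z.1) h

variable [NeZero l]

theorem exists_rep (φ : homPar Γ ℤ (ZMod l)) : ∃ f : Dm K F l, D.chrD f = expZ l φ.1 := by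
  obtain ⟨f, hfD, hf⟩ := D.exists_of_good (expZ l φ.1) (expZ_pow l _) (expZ_good l φ.2)
  exact ⟨⟨f, hfD⟩, D.chrD_eq hf⟩

/-- a function with character `exp (2πi φ / l)`. -/
def rep (φ : homPar Γ ℤ (ZMod l)) : Dm K F l := (D.exists_rep φ).choose

theorem chrD_rep (φ : homPar Γ ℤ (ZMod l)) : D.chrD (D.rep φ) = expZ l φ.1 :=
  (D.exists_rep φ).choose_spec

/-- **the map `Hom_{par,ell}(Γ, ℤ/l) → Kum`.** -/
def Psi : homPar Γ ℤ (ZMod l) →+ Kum K F l :=
  AddMonoidHom.mk' (fun φ => Kum.mk (D.rep φ)) (by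
    intro φ φ'
    apply D.chr_injective
    rw [map_add, chr_mk, chr_mk, chr_mk, chrD_rep, chrD_rep, chrD_rep, Submodule.coe_add, expZ_add]
    rfl)

theorem Psi_apply (φ : homPar Γ ℤ (ZMod l)) : D.Psi φ = Kum.mk (D.rep φ) := rfl

theorem chr_Psi (φ : homPar Γ ℤ (ZMod l)) : D.chr (D.Psi φ) = Additive.ofMul (expZ l φ.1) := by
  rw [Psi_apply, chr_mk, chrD_rep]

theorem Psi_injective : Function.Injective D.Psi := by
  rw [injective_iff_map_eq_zero]
  intro φ h
  have h1 : expZ l φ.1 = 1 := by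
    have := D.chr_Psi φ
    rw [h, map_zero] at this
    exact this.symm
  exact Subtype.ext ((expZ_eq_one_iff l _).mp h1)

variable (hD : ∀ i, ∀ f ∈ Dm K F l, op i f ∈ Dm K F l)

theorem chr_map (i : ι) (x : Kum K F l) (χ' : Γ →* ℂˣ)
    (hχ' : ∀ γ, χ' γ = ∏ z : (C i).X, (D.chr x).toMul ((C i).c γ z)) :
    D.chr (Kum.map (op i) (hD i) x) = Additive.ofMul χ' := by
  obtain ⟨f, rfl⟩ := Kum.mk_surjective x
  rw [Kum.map_mk, chr_mk]
  congr 1
  apply D.chrD_eq
  exact D.equivariant i f.2 (D.chrD_spec f) hχ'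

/-- **equivariance of `Psi`.** -/
theorem Psi_op (i : ι) (φ : homPar Γ ℤ (ZMod l)) :
    D.Psi ((C i).opPar ℤ (ZMod l) φ) = Kum.map (op i) (hD i) (D.Psi φ) := by
  apply D.chr_injective
  rw [D.chr_map hD i (D.Psi φ) (expZ l ((C i).op (ZMod l) φ.1))
    (fun γ => by rw [expZ_op, chr_Psi]; rfl), chr_Psi]
  rfl

theorem Psi_lift (P : FreeAlgebra ℤ ι) (φ : homPar Γ ℤ (ZMod l)) :
    D.Psi (FreeAlgebra.lift ℤ (fun i => (C i).opPar ℤ (ZMod l)) P φ)
      = FreeAlgebra.lift ℤ (fun i => (Kum.map (op i) (hD i)).toIntLinearMap) P (D.Psi φ) :=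
  lift_intertwine D.Psi _ _ (fun i x => D.Psi_op hD i x) P φ

include D in
/-- **a polynomial in the operators killing `Kum` kills `Hom_{par,ell}(Γ, ℤ/l)`.** -/
theorem kills (P : FreeAlgebra ℤ ι)
    (hP : FreeAlgebra.lift ℤ (fun i => (Kum.map (op i) (hD i)).toIntLinearMap) P = 0) :
    FreeAlgebra.lift ℤ (fun i => (C i).opPar ℤ (ZMod l)) P = 0 := by
  ext1 φ
  apply D.Psi_injective
  rw [D.Psi_lift hD, hP, LinearMap.zero_apply, LinearMap.zero_apply, map_zero]

end CharData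

end

end Fermat.Agent.S48.Glue1
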