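import Fermat.Agent.S48.Glue1.Abstract
import Fermat.Agent.S48.B1.ToD
import Fermat.Agent.S48.Coh1.Main
import Fermat.Agent.S48.H.Hecke

/-!
# S48 / Glue1 : the support property and the `ES1Module` for `Γ₁(M)`

Input: a `QField` `Q` with `HeckeData` `H` of level `M` (parts X1, An1), `PreservesDm` (An1), CRUX (C1) and
the analytic dictionary `CharData` (An1) for the correspondences `Coh1.corrIdx M` and the operators `opIdx H`.
Output: `B1.SuppProp`, finiteness of the Kummer module, and the `D1.ES1Module`.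
-/

set_option autoImplicit false
set_option linter.unusedSectionVars false

open CongruenceSubgroup Matrix.SpecialLinearGroup UpperHalfPlane ModularForm
open scoped MatrixGroups ModularForm

namespace Fermat.Agent.S48.Glue1

open Fermat.Agent.ES Fermat.Agent.S48.B1 Fermat.Agent.S48.Coh1 AlgebraicCurve

noncomputable section

variable {Q : QField} {M : ℕ} [NeZero M] (H : HeckeData Q M) {l : ℕ}

/-- the multiplicative operators `T_p`, `⟨d⟩` on `Q.Fˣ`. -/
def opIdx : Idx M → Q.Fˣ →* Q.Fˣ :=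
  Sum.elim (fun p => H.heckeU p) (fun d => semiU (SemilinearAut.ofAlgAut (H.dia d)))

theorem opIdx_mem (hD : H.PreservesDm l) (i : Idx M) (f : Q.Fˣ) (hf : f ∈ Dm Qb Q.F l) :
    opIdx H i f ∈ Dm Qb Q.F l := by
  rcases i with p | d
  · exact hD p f hf
  · exact semiU_mem_Dm _ hf

theorem ops_eq (hD : H.PreservesDm l) :
    (Sum.elim (heckeT H hD) (fun d => diaRepZ H l d) : Idx M → Module.End ℤ (Kum Qb Q.F l))
      = fun i => (Kum.map (opIdx H i) (opIdx_mem H hD i)).toIntLinearMap := by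
  funext i
  rcases i with p | d
  · rfl
  · rfl

/-- `T_p`, `⟨d⟩` on `S_2(Γ₁(M))` (part H). -/
def TopH (M : ℕ) [NeZero M] : Idx M → Module.End ℂ (CuspForm (Gamma1 M) 2) :=
  Sum.elim (fun p => S48.H.heckeT 2 p.2.1 p.2.2) (fun d => S48.H.diamond 2 d)

theorem coe_diamond_sig (k : ℤ) (d : (ZMod M)ˣ) (f : CuspForm (Gamma1 M) k) :
    (S48.H.diamond k d f : ℍ → ℂ) = (f : ℍ → ℂ) ∣[k] mapGL ℝ (sig M d : SL(2, ℤ)) := by
  apply S48.H.coe_diamond k d f
  · have := (sig M d).2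
    rw [Gamma0_mem] at this
    exact (ZMod.intCast_zmod_eq_zero_iff_dvd _ _).mp this
  · exact Gamma0Map_sig M d

theorem TopH_T (p : D.GoodPrime M) (f : CuspForm (Gamma1 M) 2) :
    haveI : Fact p.1.Prime := ⟨p.2.1⟩
    (TopH M (Sum.inl p) f : ℍ → ℂ)
      = ∑ x : OnePoint (ZMod p.1), (f : ℍ → ℂ) ∣[(2 : ℤ)] repT M p.1 p.2.2 x := by
  haveI : Fact p.1.Prime := ⟨p.2.1⟩
  rw [sum_slash_repT]
  show (S48.H.heckeT 2 p.2.1 p.2.2 f : ℍ → ℂ) = _
  rw [S48.H.coe_heckeT, coe_diamond_sig]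
  rfl

theorem TopH_D (d : (ZMod M)ˣ) (f : CuspForm (Gamma1 M) 2) :
    (TopH M (Sum.inr d) f : ℍ → ℂ) = (f : ℍ → ℂ) ∣[(2 : ℤ)] mapGL ℝ (sig M d : SL(2, ℤ)) :=
  coe_diamond_sig 2 d f

/-- **The support property for `Γ₁(M)`.** -/
theorem suppProp [NeZero l] (hD : H.PreservesDm l)
    (𝒟 : CharData Qb Q.F l (Gamma1 M) (corrIdx M) (opIdx H)) :
    SuppProp H hD (CuspForm (Gamma1 M) 2) (fun p => S48.H.heckeT 2 p.2.1 p.2.2)
      (fun d => S48.H.diamond 2 d) := by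
  intro P hP
  rw [ops_eq] at hP
  exact supp_Gamma1 M (TopH M) TopH_T TopH_D l P (𝒟.kills (opIdx_mem H hD) P hP)

/-- **The Eichler-Shimura module of level `Γ₁(M)`**, from X1, An1, C1. -/
def es1Module [NeZero l] (hD : H.PreservesDm l)
    (hcrux : ∀ p : ℕ, p.Prime → ¬ p ∣ M → Crux1 Q p l)
    (𝒟 : CharData Qb Q.F l (Gamma1 M) (corrIdx M) (opIdx H)) :
    D1.ES1Module M l (CuspForm (Gamma1 M) 2) (fun p => S48.H.heckeT 2 p.2.1 p.2.2)
      (fun d => S48.H.diamond 2 d) :=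
  B1.es1Module H hD (NeZero.ne l) hcrux (𝒟.finite_Kum (Nat.pos_of_ne_zero (NeZero.ne l))) _ _ _
    (suppProp H hD 𝒟)

end

end Fermat.Agent.S48.Glue1
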